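/-
Program R, package [QEXP]: Laurent `q`-expansions of holomorphic periodic functions on the
upper half plane which are meromorphic at `i∞`.

Main definitions / results (namespace `Fermat.Agent.ProgramR.QExp`):
* `qPow h m : ℍ → ℂ`              : `τ ↦ q_h(τ)^m`, `q_h(τ) = exp(2πiτ/h)`.
* `IsHolPerBdd h f`               : `f` holomorphic, `h`-periodic, bounded at `i∞`.
* `IsMeroAtInfty h m f`           : `f` holomorphic, `h`-periodic, `q_h^m f` bounded at `i∞`.
* `merRing h hh : Subring (ℍ → ℂ)`: functions with `∃ m, IsMeroAtInfty h m f`.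
* `laurentExp h f : LaurentSeries ℂ` and the ring hom `laurentExpHom`.
* `laurentExp_injective`, `laurentExp_eq_of_hasSum`, `le_order_laurentExp_iff`.
-/
import Mathlib

set_option autoImplicit false

noncomputable section

open Complex Filter Function
open UpperHalfPlane hiding I
open scoped Real Topology Manifold

namespace Fermat.Agent.ProgramR.QExp

local notation "𝕢" => Periodic.qParam

/-- The function `τ ↦ q_h(τ)^m` on the upper half plane. -/
def qPow (h : ℝ) (m : ℕ) : ℍ → ℂ := fun τ => 𝕢 h τ ^ m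

@[simp] lemma qPow_apply (h : ℝ) (m : ℕ) (τ : ℍ) : qPow h m τ = 𝕢 h τ ^ m := rfl

lemma qPow_zero (h : ℝ) : qPow h 0 = 1 := by
  funext τ; simp

lemma qPow_add (h : ℝ) (m n : ℕ) : qPow h (m + n) = qPow h m * qPow h n := by
  funext τ; simp [pow_add]

lemma qPow_ne_zero (h : ℝ) (m : ℕ) (τ : ℍ) : qPow h m τ ≠ 0 :=
  pow_ne_zero _ (Periodic.qParam_ne_zero _)

/-- Periodicity of `f ∘ ofComplex` from invariance under the real translation. -/
lemma periodic_comp_ofComplex_of_vadd {f : ℍ → ℂ} {h : ℝ}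
    (hf : ∀ τ : ℍ, f (h +ᵥ τ) = f τ) : Periodic (f ∘ ofComplex) h := by
  intro w
  by_cases hw : 0 < im w
  · have hw' : 0 < im (w + h) := by simpa using hw
    simp only [comp_apply, ofComplex_apply_of_im_pos hw', ofComplex_apply_of_im_pos hw]
    rw [← hf ⟨w, hw⟩]
    congr 1
    ext
    simp [add_comm]
  · have hw0 : im w ≤ 0 := not_lt.mp hw
    have hw' : im (w + h) ≤ 0 := by simpa using hw0
    simp [ofComplex_apply_of_im_nonpos hw', ofComplex_apply_of_im_nonpos hw0]

lemma vadd_of_periodic_comp_ofComplex {f : ℍ → ℂ} {h : ℝ}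
    (hf : Periodic (f ∘ ofComplex) h) (τ : ℍ) : f (h +ᵥ τ) = f τ := by
  have := hf (τ : ℂ)
  simp only [comp_apply, ofComplex_apply] at this
  rw [← this]
  congr 1
  have h2 : 0 < im ((τ : ℂ) + h) := by simpa using τ.im_pos
  rw [ofComplex_apply_of_im_pos h2]
  ext
  simp [add_comm]

lemma qParam_add_period (h : ℝ) (hh : h ≠ 0) (z : ℂ) : 𝕢 h (z + h) = 𝕢 h z := by
  have hh' : (h : ℂ) ≠ 0 := by exact_mod_cast hh
  simp only [Periodic.qParam]
  rw [show 2 * (π : ℂ) * I * (z + h) / h = 2 * π * I * z / h + 2 * π * I by field_simp,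
    Complex.exp_add, Complex.exp_two_pi_mul_I, mul_one]

lemma qPow_vadd (h : ℝ) (hh : h ≠ 0) (m : ℕ) (τ : ℍ) : qPow h m (h +ᵥ τ) = qPow h m τ := by
  simp only [qPow_apply, coe_vadd]
  congr 1
  rw [add_comm]
  exact qParam_add_period h hh τ

lemma mdifferentiable_qPow (h : ℝ) (m : ℕ) : MDifferentiable 𝓘(ℂ) 𝓘(ℂ) (qPow h m) := by
  rw [UpperHalfPlane.mdifferentiable_iff]
  have : DifferentiableOn ℂ (fun z : ℂ => 𝕢 h z ^ m) {z | 0 < z.im} :=
    ((Periodic.differentiable_qParam (h := h)).pow m).differentiableOn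
  refine this.congr ?_
  intro z hz
  simp [ofComplex_apply_of_im_pos hz]

lemma norm_qPow_le_one {h : ℝ} (hh : 0 < h) (m : ℕ) (τ : ℍ) : ‖qPow h m τ‖ ≤ 1 := by
  rw [qPow_apply, norm_pow]
  exact pow_le_one₀ (norm_nonneg _) (Periodic.norm_qParam_lt_one hh τ.im_pos).le

lemma isBoundedAtImInfty_qPow {h : ℝ} (hh : 0 < h) (m : ℕ) : IsBoundedAtImInfty (qPow h m) := by
  rw [isBoundedAtImInfty_iff]
  exact ⟨1, 0, fun τ _ => norm_qPow_le_one hh m τ⟩

/-- `f` is holomorphic on `ℍ`, `h`-periodic, and bounded at `i∞`. -/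
structure IsHolPerBdd (h : ℝ) (f : ℍ → ℂ) : Prop where
  holo : MDifferentiable 𝓘(ℂ) 𝓘(ℂ) f
  periodic : Periodic (f ∘ ofComplex) h
  bdd : IsBoundedAtImInfty f

namespace IsHolPerBdd

variable {h : ℝ} {f g : ℍ → ℂ}

lemma analyticAt (hh : 0 < h) (hf : IsHolPerBdd h f) : AnalyticAt ℂ (cuspFunction h f) 0 :=
  analyticAt_cuspFunction_zero hh hf.periodic hf.holo hf.bdd

lemma add (hf : IsHolPerBdd h f) (hg : IsHolPerBdd h g) : IsHolPerBdd h (f + g) where
  holo := hf.holo.add hg.holo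
  periodic := periodic_comp_ofComplex_of_vadd fun τ => by
    simp [vadd_of_periodic_comp_ofComplex hf.periodic, vadd_of_periodic_comp_ofComplex hg.periodic]
  bdd := hf.bdd.add hg.bdd

lemma mul (hf : IsHolPerBdd h f) (hg : IsHolPerBdd h g) : IsHolPerBdd h (f * g) where
  holo := hf.holo.mul hg.holo
  periodic := periodic_comp_ofComplex_of_vadd fun τ => by
    simp [vadd_of_periodic_comp_ofComplex hf.periodic, vadd_of_periodic_comp_ofComplex hg.periodic]
  bdd := hf.bdd.mul hg.bdd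

lemma neg (hf : IsHolPerBdd h f) : IsHolPerBdd h (-f) where
  holo := hf.holo.neg
  periodic := periodic_comp_ofComplex_of_vadd fun τ => by
    simp [vadd_of_periodic_comp_ofComplex hf.periodic]
  bdd := Filter.BoundedAtFilter.neg hf.bdd

lemma const (h : ℝ) (c : ℂ) : IsHolPerBdd h (fun _ => c) where
  holo := mdifferentiable_const
  periodic := fun _ => rfl
  bdd := Filter.const_boundedAtFilter _ c

lemma qPow (hh : 0 < h) (m : ℕ) : IsHolPerBdd h (qPow h m) where
  holo := mdifferentiable_qPow h m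
  periodic := periodic_comp_ofComplex_of_vadd (qPow_vadd h hh.ne' m)
  bdd := isBoundedAtImInfty_qPow hh m

end IsHolPerBdd

/-- Uniqueness of `q`-expansion coefficients, for plain functions. -/
lemma qExpansion_coeff_unique' {f : ℍ → ℂ} {c : ℕ → ℂ} {h : ℝ} (hh : 0 < h)
    (hfanalytic : AnalyticAt ℂ (cuspFunction h f) 0)
    (hf : ∀ τ : ℍ, HasSum (fun m ↦ c m • 𝕢 h τ ^ m) (f τ)) (m : ℕ) :
    c m = (qExpansion h f).coeff m := by
  have h1 := (hasFPowerSeriesOnBall_cuspFunction hh hfanalytic hf).hasFPowerSeriesAt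
  have h2 : HasFPowerSeriesAt (cuspFunction h f)
      (FormalMultilinearSeries.ofScalars ℂ fun m ↦ (qExpansion h f).coeff m) 0 := by
    simpa [qExpansion_coeff, div_eq_mul_inv, mul_comm] using hfanalytic.hasFPowerSeriesAt
  simpa [FormalMultilinearSeries.coeff_ofScalars] using
    congr_arg (FormalMultilinearSeries.coeff · m) (h1.eq_formalMultilinearSeries h2)

/-- Uniqueness of `q`-expansions, power series form. -/
lemma qExpansion_eq_of_hasSum {f : ℍ → ℂ} {c : ℕ → ℂ} {h : ℝ} (hh : 0 < h)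
    (hfanalytic : AnalyticAt ℂ (cuspFunction h f) 0)
    (hf : ∀ τ : ℍ, HasSum (fun m ↦ c m • 𝕢 h τ ^ m) (f τ)) :
    qExpansion h f = PowerSeries.mk c := by
  ext m
  rw [PowerSeries.coeff_mk, ← qExpansion_coeff_unique' hh hfanalytic hf m]

/-- The `q`-expansion of `q^m` is `X^m`. -/
lemma qExpansion_qPow {h : ℝ} (hh : 0 < h) (m : ℕ) :
    qExpansion h (qPow h m) = PowerSeries.X ^ m := by
  ext n
  rw [PowerSeries.coeff_X_pow]
  have hsum : ∀ τ : ℍ, HasSum (fun n => (if n = m then (1 : ℂ) else 0) • 𝕢 h τ ^ n)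
      (qPow h m τ) := by
    intro τ
    have := hasSum_ite_eq m (𝕢 h (τ : ℂ) ^ m)
    rw [qPow_apply]
    convert this using 2 with n
    by_cases hn : n = m
    · subst hn; simp
    · simp [hn]
  exact (qExpansion_coeff_unique' hh ((IsHolPerBdd.qPow hh m).analyticAt hh) hsum n).symm

/-- `f` is holomorphic on `ℍ`, `h`-periodic, and `q_h^m f` is bounded at `i∞`
(a pole of order at most `m` at `i∞`). -/
structure IsMeroAtInfty (h : ℝ) (m : ℕ) (f : ℍ → ℂ) : Prop where
  holo : MDifferentiable 𝓘(ℂ) 𝓘(ℂ) f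
  periodic : Periodic (f ∘ ofComplex) h
  bdd : IsBoundedAtImInfty (qPow h m * f)

namespace IsMeroAtInfty

variable {h : ℝ} {m n : ℕ} {f g : ℍ → ℂ}

lemma isHolPerBdd (hh : 0 < h) (hf : IsMeroAtInfty h m f) : IsHolPerBdd h (qPow h m * f) where
  holo := (mdifferentiable_qPow h m).mul hf.holo
  periodic := periodic_comp_ofComplex_of_vadd fun τ => by
    simp only [Pi.mul_apply, qPow_vadd h hh.ne' m, vadd_of_periodic_comp_ofComplex hf.periodic]
  bdd := hf.bdd

lemma of_isHolPerBdd (hf : IsHolPerBdd h f) : IsMeroAtInfty h 0 f where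
  holo := hf.holo
  periodic := hf.periodic
  bdd := by simpa [qPow_zero] using hf.bdd

lemma mono (hh : 0 < h) (hf : IsMeroAtInfty h m f) (hmn : m ≤ n) : IsMeroAtInfty h n f where
  holo := hf.holo
  periodic := hf.periodic
  bdd := by
    obtain ⟨k, rfl⟩ := Nat.exists_eq_add_of_le hmn
    have : qPow h (m + k) * f = qPow h k * (qPow h m * f) := by
      rw [qPow_add]; ring
    rw [this]
    exact (isBoundedAtImInfty_qPow hh k).mul hf.bdd

lemma add (hh : 0 < h) (hf : IsMeroAtInfty h m f) (hg : IsMeroAtInfty h m g) :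
    IsMeroAtInfty h m (f + g) where
  holo := hf.holo.add hg.holo
  periodic := periodic_comp_ofComplex_of_vadd fun τ => by
    simp [vadd_of_periodic_comp_ofComplex hf.periodic, vadd_of_periodic_comp_ofComplex hg.periodic]
  bdd := by
    rw [mul_add]
    exact hf.bdd.add hg.bdd

lemma mul (hf : IsMeroAtInfty h m f) (hg : IsMeroAtInfty h n g) :
    IsMeroAtInfty h (m + n) (f * g) where
  holo := hf.holo.mul hg.holo
  periodic := periodic_comp_ofComplex_of_vadd fun τ => by
    simp [vadd_of_periodic_comp_ofComplex hf.periodic, vadd_of_periodic_comp_ofComplex hg.periodic]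
  bdd := by
    have : qPow h (m + n) * (f * g) = (qPow h m * f) * (qPow h n * g) := by
      rw [qPow_add]; ring
    rw [this]
    exact hf.bdd.mul hg.bdd

lemma neg (hf : IsMeroAtInfty h m f) : IsMeroAtInfty h m (-f) where
  holo := hf.holo.neg
  periodic := periodic_comp_ofComplex_of_vadd fun τ => by
    simp [vadd_of_periodic_comp_ofComplex hf.periodic]
  bdd := by
    rw [mul_neg]
    exact Filter.BoundedAtFilter.neg hf.bdd

end IsMeroAtInfty

/-- Auxiliary Laurent expansion with a prescribed bound `m` on the pole order. -/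
def laurentAux (h : ℝ) (m : ℕ) (f : ℍ → ℂ) : LaurentSeries ℂ :=
  HahnSeries.single (-(m : ℤ)) (1 : ℂ) *
    HahnSeries.ofPowerSeries ℤ ℂ (qExpansion h (qPow h m * f))

lemma laurentAux_succ {h : ℝ} (hh : 0 < h) {m : ℕ} {f : ℍ → ℂ} (hf : IsMeroAtInfty h m f) :
    laurentAux h (m + 1) f = laurentAux h m f := by
  have h1 : qPow h (m + 1) * f = qPow h 1 * (qPow h m * f) := by
    rw [qPow_add]; ring
  rw [laurentAux, laurentAux, h1,
    qExpansion_mul ((IsHolPerBdd.qPow hh 1).analyticAt hh) ((hf.isHolPerBdd hh).analyticAt hh),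
    qExpansion_qPow hh, pow_one, map_mul, HahnSeries.ofPowerSeries_X, ← mul_assoc,
    HahnSeries.single_mul_single]
  congr 2
  · push_cast; ring_nf
  · simp

lemma laurentAux_add {h : ℝ} (hh : 0 < h) {m : ℕ} {f : ℍ → ℂ} (hf : IsMeroAtInfty h m f)
    (k : ℕ) : laurentAux h (m + k) f = laurentAux h m f := by
  induction k with
  | zero => rfl
  | succ k ih =>
    rw [← add_assoc, laurentAux_succ hh (hf.mono hh (Nat.le_add_right m k)), ih]

lemma laurentAux_eq_of_le {h : ℝ} (hh : 0 < h) {m n : ℕ} {f : ℍ → ℂ}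
    (hf : IsMeroAtInfty h m f) (hmn : m ≤ n) : laurentAux h n f = laurentAux h m f := by
  obtain ⟨k, rfl⟩ := Nat.exists_eq_add_of_le hmn
  exact laurentAux_add hh hf k

open Classical in
/-- The Laurent `q_h`-expansion of a function on `ℍ` (junk value `0` if `f` is not holomorphic,
`h`-periodic and meromorphic at `i∞`). -/
def laurentExp (h : ℝ) (f : ℍ → ℂ) : LaurentSeries ℂ :=
  if hf : ∃ m, IsMeroAtInfty h m f then laurentAux h (Nat.find hf) f else 0

lemma laurentExp_eq {h : ℝ} (hh : 0 < h) {m : ℕ} {f : ℍ → ℂ} (hf : IsMeroAtInfty h m f) :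
    laurentExp h f = laurentAux h m f := by
  classical
  have hex : ∃ m, IsMeroAtInfty h m f := ⟨m, hf⟩
  rw [laurentExp, dif_pos hex]
  exact (laurentAux_eq_of_le hh (Nat.find_spec hex) (Nat.find_min' hex hf)).symm

lemma laurentExp_of_isHolPerBdd {h : ℝ} (hh : 0 < h) {f : ℍ → ℂ} (hf : IsHolPerBdd h f) :
    laurentExp h f = HahnSeries.ofPowerSeries ℤ ℂ (qExpansion h f) := by
  rw [laurentExp_eq hh (IsMeroAtInfty.of_isHolPerBdd hf), laurentAux]
  simp [qPow_zero]

lemma laurentExp_mul {h : ℝ} (hh : 0 < h) {m n : ℕ} {f g : ℍ → ℂ}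
    (hf : IsMeroAtInfty h m f) (hg : IsMeroAtInfty h n g) :
    laurentExp h (f * g) = laurentExp h f * laurentExp h g := by
  rw [laurentExp_eq hh (hf.mul hg), laurentExp_eq hh hf, laurentExp_eq hh hg]
  have h1 : qPow h (m + n) * (f * g) = (qPow h m * f) * (qPow h n * g) := by
    rw [qPow_add]; ring
  rw [laurentAux, laurentAux, laurentAux, h1,
    qExpansion_mul ((hf.isHolPerBdd hh).analyticAt hh) ((hg.isHolPerBdd hh).analyticAt hh),
    map_mul]
  have h2 : (HahnSeries.single (-((m + n : ℕ) : ℤ)) (1 : ℂ) : LaurentSeries ℂ) =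
      HahnSeries.single (-(m : ℤ)) 1 * HahnSeries.single (-(n : ℤ)) 1 := by
    rw [HahnSeries.single_mul_single]
    congr 1
    · push_cast; ring_nf
    · simp
  rw [h2]
  ring

lemma laurentExp_add_aux {h : ℝ} (hh : 0 < h) {m : ℕ} {f g : ℍ → ℂ}
    (hf : IsMeroAtInfty h m f) (hg : IsMeroAtInfty h m g) :
    laurentExp h (f + g) = laurentExp h f + laurentExp h g := by
  rw [laurentExp_eq hh (hf.add hh hg), laurentExp_eq hh hf, laurentExp_eq hh hg]
  rw [laurentAux, laurentAux, laurentAux, mul_add (qPow h m),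
    qExpansion_add ((hf.isHolPerBdd hh).analyticAt hh) ((hg.isHolPerBdd hh).analyticAt hh),
    map_add, mul_add]

lemma laurentExp_add {h : ℝ} (hh : 0 < h) {m n : ℕ} {f g : ℍ → ℂ}
    (hf : IsMeroAtInfty h m f) (hg : IsMeroAtInfty h n g) :
    laurentExp h (f + g) = laurentExp h f + laurentExp h g :=
  laurentExp_add_aux hh (hf.mono hh (le_max_left m n)) (hg.mono hh (le_max_right m n))

lemma laurentExp_const {h : ℝ} (hh : 0 < h) (c : ℂ) :
    laurentExp h (fun _ => c) = HahnSeries.C c := by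
  rw [laurentExp_of_isHolPerBdd hh (IsHolPerBdd.const h c)]
  have : qExpansion h (fun _ : ℍ => c) = PowerSeries.C c := by
    have h1 : (fun _ : ℍ => c) = c • (1 : ℍ → ℂ) := by
      funext τ; simp
    have h2 : AnalyticAt ℂ (cuspFunction h (1 : ℍ → ℂ)) 0 := by
      have := (IsHolPerBdd.const h (1 : ℂ)).analyticAt hh
      exact this
    rw [h1, qExpansion_smul h2, qExpansion_one]
    ext n
    simp [PowerSeries.coeff_C, PowerSeries.coeff_one]
  rw [this, HahnSeries.ofPowerSeries_C]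

lemma laurentExp_one {h : ℝ} (hh : 0 < h) : laurentExp h (1 : ℍ → ℂ) = 1 := by
  have := laurentExp_const hh (1 : ℂ)
  rw [map_one] at this
  exact this

lemma laurentExp_zero {h : ℝ} (hh : 0 < h) : laurentExp h (0 : ℍ → ℂ) = 0 := by
  have := laurentExp_const hh (0 : ℂ)
  rw [map_zero] at this
  exact this

lemma laurentExp_neg {h : ℝ} (hh : 0 < h) {m : ℕ} {f : ℍ → ℂ} (hf : IsMeroAtInfty h m f) :
    laurentExp h (-f) = -laurentExp h f := by
  have h1 := laurentExp_add hh hf hf.neg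
  rw [add_neg_cancel, laurentExp_zero hh] at h1
  exact (neg_eq_of_add_eq_zero_right h1.symm).symm

/-- The Laurent expansion of `q^m` is `X^m`. -/
lemma laurentExp_qPow {h : ℝ} (hh : 0 < h) (m : ℕ) :
    laurentExp h (qPow h m) = HahnSeries.single (m : ℤ) (1 : ℂ) := by
  rw [laurentExp_of_isHolPerBdd hh (IsHolPerBdd.qPow hh m), qExpansion_qPow hh, map_pow,
    HahnSeries.ofPowerSeries_X, HahnSeries.single_pow]
  simp

/-- Injectivity on functions meromorphic at infinity. -/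
lemma eq_zero_of_laurentExp_eq_zero {h : ℝ} (hh : 0 < h) {m : ℕ} {f : ℍ → ℂ}
    (hf : IsMeroAtInfty h m f) (h0 : laurentExp h f = 0) : f = 0 := by
  rw [laurentExp_eq hh hf, laurentAux] at h0
  have hs : (HahnSeries.single (-(m : ℤ)) (1 : ℂ) : LaurentSeries ℂ) ≠ 0 := by
    simp
  have h1 := (mul_eq_zero.mp h0).resolve_left hs
  have h2 : qExpansion h (qPow h m * f) = 0 := by
    have hinj := HahnSeries.ofPowerSeries_injective (Γ := ℤ) (R := ℂ)
    exact hinj (by simpa using h1)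
  have hb := hf.isHolPerBdd hh
  have h3 := (qExpansion_eq_zero_iff hh hb.periodic hb.holo hb.bdd).mp h2
  funext τ
  have h4 := congrFun h3 τ
  simp only [Pi.mul_apply, Pi.zero_apply, mul_eq_zero] at h4
  exact h4.resolve_left (qPow_ne_zero h m τ)

/-- Characterisation of the Laurent expansion by a convergent expansion of `q^m f`. -/
lemma laurentExp_eq_of_hasSum {h : ℝ} (hh : 0 < h) {m : ℕ} {f : ℍ → ℂ} {c : ℕ → ℂ}
    (hf : IsMeroAtInfty h m f)
    (hsum : ∀ τ : ℍ, HasSum (fun n ↦ c n • 𝕢 h τ ^ n) (𝕢 h τ ^ m * f τ)) :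
    laurentExp h f = HahnSeries.single (-(m : ℤ)) (1 : ℂ) *
      HahnSeries.ofPowerSeries ℤ ℂ (PowerSeries.mk c) := by
  rw [laurentExp_eq hh hf, laurentAux,
    qExpansion_eq_of_hasSum hh ((hf.isHolPerBdd hh).analyticAt hh) (c := c) hsum]

lemma coeff_single_neg_mul_ofPowerSeries (m : ℕ) (P : PowerSeries ℂ) (n : ℤ) :
    (HahnSeries.single (-(m : ℤ)) (1 : ℂ) * HahnSeries.ofPowerSeries ℤ ℂ P).coeff n =
      if 0 ≤ n + m then PowerSeries.coeff (n + m).toNat P else 0 := by
  rw [HahnSeries.coeff_single_mul, one_mul, sub_neg_eq_add]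
  split_ifs with hn
  · obtain ⟨k, hk⟩ := Int.eq_ofNat_of_zero_le hn
    rw [hk, Int.toNat_natCast, HahnSeries.ofPowerSeries_apply_coeff]
  · rw [HahnSeries.ofPowerSeries_apply]
    refine HahnSeries.embDomain_of_notMem_range ?_
    rintro ⟨k, hk⟩
    apply hn
    rw [← hk]
    simp

lemma laurentExp_coeff {h : ℝ} (hh : 0 < h) {m : ℕ} {f : ℍ → ℂ} (hf : IsMeroAtInfty h m f)
    (n : ℤ) : (laurentExp h f).coeff n =
      if 0 ≤ n + m then PowerSeries.coeff (n + m).toNat (qExpansion h (qPow h m * f)) else 0 := by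
  rw [laurentExp_eq hh hf, laurentAux, coeff_single_neg_mul_ofPowerSeries]

lemma laurentExp_coeff_of_lt {h : ℝ} (hh : 0 < h) {m : ℕ} {f : ℍ → ℂ}
    (hf : IsMeroAtInfty h m f) {n : ℤ} (hn : n < -(m : ℤ)) : (laurentExp h f).coeff n = 0 := by
  rw [laurentExp_coeff hh hf, if_neg (by omega)]

/-- If the Laurent coefficients of `f` vanish below `-m` then `q^m f` is bounded at `i∞`. -/
lemma isMeroAtInfty_of_coeff_eq_zero {h : ℝ} (hh : 0 < h) {M m : ℕ} {f : ℍ → ℂ}
    (hf : IsMeroAtInfty h M f) (hc : ∀ n : ℤ, n < -(m : ℤ) → (laurentExp h f).coeff n = 0) :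
    IsMeroAtInfty h m f := by
  rcases le_or_gt M m with hMm | hMm
  · exact hf.mono hh hMm
  obtain ⟨k, rfl⟩ := Nat.exists_eq_add_of_lt hMm
  -- `M = m + k + 1`
  refine ⟨hf.holo, hf.periodic, ?_⟩
  have hb := hf.isHolPerBdd hh
  set c : ℕ → ℂ := fun n => PowerSeries.coeff n (qExpansion h (qPow h (m + k + 1) * f)) with hcdef
  have hc0 : ∀ n, n < k + 1 → c n = 0 := by
    intro n hn
    have := hc ((n : ℤ) - ((m + k + 1 : ℕ) : ℤ)) (by push_cast; omega)
    rw [laurentExp_coeff hh hf, if_pos (by omega)] at this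
    simpa [hcdef] using this
  have hsum : ∀ τ : ℍ, HasSum (fun n => c n • 𝕢 h τ ^ n) ((qPow h (m + k + 1) * f) τ) :=
    fun τ => hasSum_qExpansion hh hb.periodic hb.holo hb.bdd τ
  refine isBoundedAtImInfty_of_hasSum_qExpansion (c := fun n => c (n + (k + 1))) hh ?_
  intro τ
  have h1 := (hasSum_nat_add_iff' (k + 1)).mpr (hsum τ)
  have h2 : ∑ i ∈ Finset.range (k + 1), c i • 𝕢 h (τ : ℂ) ^ i = 0 := by
    apply Finset.sum_eq_zero
    intro i hi
    rw [hc0 i (Finset.mem_range.mp hi), zero_smul]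
  rw [h2, sub_zero] at h1
  have hq : 𝕢 h (τ : ℂ) ^ (k + 1) ≠ 0 := pow_ne_zero _ (Periodic.qParam_ne_zero _)
  have h3 := h1.mul_right ((𝕢 h (τ : ℂ) ^ (k + 1))⁻¹)
  have h4 : (fun i => c (i + (k + 1)) • 𝕢 h (τ : ℂ) ^ (i + (k + 1)) * (𝕢 h (τ : ℂ) ^ (k + 1))⁻¹)
      = fun n => c (n + (k + 1)) • 𝕢 h (τ : ℂ) ^ n := by
    funext n
    simp only [smul_eq_mul]
    rw [pow_add]
    field_simp
  have h5 : (qPow h (m + k + 1) * f) τ * (𝕢 h (τ : ℂ) ^ (k + 1))⁻¹ = (qPow h m * f) τ := by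
    simp only [Pi.mul_apply, qPow_apply]
    rw [show m + k + 1 = m + (k + 1) by ring, pow_add]
    field_simp
  rw [h4, h5] at h3
  exact h3

/-- The subring of functions on `ℍ` that are holomorphic, `h`-periodic and meromorphic at `i∞`. -/
def merRing (h : ℝ) (hh : 0 < h) : Subring (ℍ → ℂ) where
  carrier := {f | ∃ m, IsMeroAtInfty h m f}
  mul_mem' := by
    rintro f g ⟨m, hf⟩ ⟨n, hg⟩
    exact ⟨m + n, hf.mul hg⟩
  one_mem' := ⟨0, IsMeroAtInfty.of_isHolPerBdd (IsHolPerBdd.const h 1)⟩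
  add_mem' := by
    rintro f g ⟨m, hf⟩ ⟨n, hg⟩
    exact ⟨max m n, (hf.mono hh (le_max_left m n)).add hh (hg.mono hh (le_max_right m n))⟩
  zero_mem' := ⟨0, IsMeroAtInfty.of_isHolPerBdd (IsHolPerBdd.const h 0)⟩
  neg_mem' := by
    rintro f ⟨m, hf⟩
    exact ⟨m, hf.neg⟩

lemma mem_merRing {h : ℝ} {hh : 0 < h} {f : ℍ → ℂ} :
    f ∈ merRing h hh ↔ ∃ m, IsMeroAtInfty h m f := Iff.rfl

/-- The Laurent expansion as a ring homomorphism. -/
def laurentExpHom (h : ℝ) (hh : 0 < h) : merRing h hh →+* LaurentSeries ℂ where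
  toFun f := laurentExp h (f : ℍ → ℂ)
  map_one' := laurentExp_one hh
  map_mul' := by
    rintro ⟨f, m, hf⟩ ⟨g, n, hg⟩
    exact laurentExp_mul hh hf hg
  map_zero' := laurentExp_zero hh
  map_add' := by
    rintro ⟨f, m, hf⟩ ⟨g, n, hg⟩
    exact laurentExp_add hh hf hg

@[simp] lemma laurentExpHom_apply {h : ℝ} {hh : 0 < h} (f : merRing h hh) :
    laurentExpHom h hh f = laurentExp h (f : ℍ → ℂ) := rfl

lemma laurentExpHom_injective (h : ℝ) (hh : 0 < h) : Function.Injective (laurentExpHom h hh) := by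
  rw [injective_iff_map_eq_zero]
  rintro ⟨f, m, hf⟩ h0
  exact Subtype.ext (eq_zero_of_laurentExp_eq_zero hh hf h0)

end Fermat.Agent.ProgramR.QExp
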