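/-
Program R, package [QEXP], part 2: the `q`-expansions of `E₄`, `Δ` and `jInv` coincide with the
formal series of the prelude (`ModularCurve.eisenstein4`, `ModularCurve.etaProd`,
`ModularCurve.jqModC ℂ`).

Main results (namespace `Fermat.Agent.ProgramR.QExp`):
* `qExpansion_E₄ : qExpansion 1 E₄ = eisenstein4.map (Int.castRingHom ℂ)`
* `qExpansion_discriminant : qExpansion 1 Δ = X * (etaProd.map (Int.castRingHom ℂ)) ^ 24`
* `isMeroAtInfty_jInv : IsMeroAtInfty 1 1 jInv`
* `laurentExp_jInv : laurentExp 1 jInv = ModularCurve.jqModC ℂ`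
-/
import Mathlib
import Fermat.Prelude.Def_ModularCurve_JqCoeff
import Fermat.Agent.ProgramR.QExp.Laurent
import Fermat.Agent.ProgramR.LevelOne.JPoly

set_option autoImplicit false

noncomputable section

open Complex Filter Function Topology
open UpperHalfPlane hiding I
open scoped Real Manifold MatrixGroups
open ModularForm EisensteinSeries

namespace Fermat.Agent.ProgramR.QExp

local notation "𝕢" => Periodic.qParam

/-! ### Taylor coefficients of polynomials and locally uniform limits -/

lemma iteratedDeriv_polynomial_eval (p : Polynomial ℂ) (m : ℕ) :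
    iteratedDeriv m (fun q : ℂ => p.eval q) = fun q => ((Polynomial.derivative)^[m] p).eval q := by
  induction m generalizing p with
  | zero => simp
  | succ m ih =>
    rw [iteratedDeriv_succ, ih]
    funext q
    rw [Polynomial.deriv, Function.iterate_succ_apply']

lemma iteratedDeriv_polynomial_eval_zero (p : Polynomial ℂ) (m : ℕ) :
    iteratedDeriv m (fun q : ℂ => p.eval q) 0 = (m.factorial : ℂ) * p.coeff m := by
  rw [iteratedDeriv_polynomial_eval]
  simp only
  rw [← Polynomial.coeff_zero_eq_eval_zero, Polynomial.coeff_iterate_derivative, zero_add,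
    Nat.descFactorial_self, nsmul_eq_mul]

lemma differentiableOn_iteratedDeriv {U : Set ℂ} (hU : IsOpen U) {f : ℂ → ℂ}
    (hf : DifferentiableOn ℂ f U) (m : ℕ) : DifferentiableOn ℂ (iteratedDeriv m f) U := by
  induction m with
  | zero => simpa using hf
  | succ m ih =>
    rw [iteratedDeriv_succ]
    exact ih.deriv hU

lemma tendstoLocallyUniformlyOn_iteratedDeriv {ι : Type*} {φ : Filter ι} {U : Set ℂ}
    (hU : IsOpen U) {F : ι → ℂ → ℂ} {f : ℂ → ℂ} (hf : TendstoLocallyUniformlyOn F f φ U)
    (hF : ∀ n, DifferentiableOn ℂ (F n) U) (m : ℕ) :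
    TendstoLocallyUniformlyOn (fun n => iteratedDeriv m (F n)) (iteratedDeriv m f) φ U := by
  induction m with
  | zero => simpa using hf
  | succ m ih =>
    have h := ih.deriv (Eventually.of_forall fun n => differentiableOn_iteratedDeriv hU (hF n) m) hU
    simp only [iteratedDeriv_succ]
    exact h

/-! ### The Euler product -/

/-- The Euler function `∏ (1 - q^(n+1))` on the unit disc. -/
def eulerG (q : ℂ) : ℂ := ∏' n : ℕ, (1 - q ^ (n + 1))

/-- The formal Euler product over `ℂ`. -/
def etaProdC : PowerSeries ℂ := ModularCurve.etaProd.map (Int.castRingHom ℂ)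

lemma differentiableOn_eulerG : DifferentiableOn ℂ eulerG (Metric.ball (0 : ℂ) 1) :=
  ModularForm.differentiableOn_tprod_one_sub_pow

/-- the finite partial products, as polynomials -/
def eulerPoly (s : Finset ℕ) : Polynomial ℂ := ∏ n ∈ s, (1 - Polynomial.X ^ (n + 1))

lemma eulerPoly_eval (s : Finset ℕ) (q : ℂ) :
    (eulerPoly s).eval q = ∏ n ∈ s, (1 - q ^ (n + 1)) := by
  simp [eulerPoly, Polynomial.eval_prod]

lemma eulerPoly_coeff (s : Finset ℕ) (m : ℕ) :
    (eulerPoly s).coeff m =
      ((PowerSeries.coeff m (∏ n ∈ s, (1 - PowerSeries.X ^ (n + 1)) : PowerSeries ℤ) : ℤ) : ℂ) := by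
  have h1 : ((eulerPoly s : Polynomial ℂ) : PowerSeries ℂ) =
      (∏ n ∈ s, (1 - PowerSeries.X ^ (n + 1)) : PowerSeries ℤ).map (Int.castRingHom ℂ) := by
    rw [eulerPoly, ← Polynomial.coeToPowerSeries.ringHom_apply, map_prod, map_prod]
    refine Finset.prod_congr rfl fun n _ => ?_
    simp
  have h2 := congrArg (PowerSeries.coeff m) h1
  rw [Polynomial.coeff_coe, PowerSeries.coeff_map] at h2
  simpa using h2

lemma tendsto_eulerPoly_coeff (m : ℕ) :
    Tendsto (fun s : Finset ℕ => (eulerPoly s).coeff m) atTop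
      (𝓝 (PowerSeries.coeff m etaProdC)) := by
  open scoped PowerSeries.WithPiTopology in
  have h1 : HasProd (fun n : ℕ => (1 - PowerSeries.X ^ (n + 1) : PowerSeries ℤ))
      ModularCurve.etaProd :=
    (PowerSeries.WithPiTopology.multipliable_one_sub_X_pow ℤ).hasProd
  have h2 : Tendsto (fun s : Finset ℕ => PowerSeries.coeff m
      (∏ n ∈ s, (1 - PowerSeries.X ^ (n + 1)) : PowerSeries ℤ)) atTop
      (𝓝 (PowerSeries.coeff m ModularCurve.etaProd)) :=
    ((PowerSeries.WithPiTopology.continuous_coeff ℤ m).tendsto _).comp h1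
  have h3 : Continuous (fun x : ℤ => (x : ℂ)) := continuous_of_discreteTopology
  have h4 := (h3.tendsto _).comp h2
  simp only [etaProdC, PowerSeries.coeff_map, eq_intCast]
  refine h4.congr fun s => ?_
  simp [eulerPoly_coeff]

/-- Taylor coefficients of the Euler function. -/
lemma iteratedDeriv_eulerG_zero (m : ℕ) :
    iteratedDeriv m eulerG 0 = (m.factorial : ℂ) * PowerSeries.coeff m etaProdC := by
  have hconv : TendstoLocallyUniformlyOn
      (fun (s : Finset ℕ) (q : ℂ) => (eulerPoly s).eval q) eulerG atTop (Metric.ball (0 : ℂ) 1) := by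
    have := ModularForm.multipliableLocallyUniformlyOn_one_sub_pow.hasProdLocallyUniformlyOn
    rw [HasProdLocallyUniformlyOn] at this
    refine this.congr fun s => ?_
    intro q _
    simp [eulerPoly_eval]
  have h1 := (tendstoLocallyUniformlyOn_iteratedDeriv Metric.isOpen_ball hconv
    (fun s => (Polynomial.differentiable _).differentiableOn) m).tendsto_at
    (Metric.mem_ball_self one_pos)
  simp only [iteratedDeriv_polynomial_eval_zero] at h1
  have h2 := (tendsto_eulerPoly_coeff m).const_mul (m.factorial : ℂ)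
  exact tendsto_nhds_unique h1 h2

/-- The Euler function composed with `q = exp(2πiτ)`. -/
def etaFun (τ : ℍ) : ℂ := eulerG (𝕢 1 τ)

lemma hasSum_etaFun (τ : ℍ) :
    HasSum (fun m : ℕ => PowerSeries.coeff m etaProdC • 𝕢 1 τ ^ m) (etaFun τ) := by
  have hq : 𝕢 1 (τ : ℂ) ∈ Metric.ball (0 : ℂ) 1 := by
    simpa using Periodic.norm_qParam_lt_one one_pos τ.im_pos
  have hs := hasSum_taylorSeries_on_ball differentiableOn_eulerG hq
  have heq : (fun n : ℕ => ((n.factorial : ℂ))⁻¹ • (𝕢 1 (τ : ℂ) - 0) ^ n • iteratedDeriv n eulerG 0)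
      = fun m : ℕ => PowerSeries.coeff m etaProdC • 𝕢 1 (τ : ℂ) ^ m := by
    funext m
    rw [iteratedDeriv_eulerG_zero, sub_zero]
    simp only [smul_eq_mul]
    have : (m.factorial : ℂ) ≠ 0 := by exact_mod_cast Nat.factorial_ne_zero m
    field_simp
  rw [heq] at hs
  exact hs

lemma etaFun_eq (τ : ℍ) : etaFun τ = ∏' n : ℕ, (1 - ModularForm.eta_q n τ) := by
  simp only [etaFun, eulerG, ModularForm.eta_q_eq_pow, Periodic.qParam, ofReal_one, div_one]

lemma isHolPerBdd_etaFun : IsHolPerBdd 1 etaFun where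
  holo := by
    rw [UpperHalfPlane.mdifferentiable_iff]
    have h1 : DifferentiableOn ℂ (fun z : ℂ => eulerG (𝕢 1 z)) {z | 0 < z.im} := by
      refine differentiableOn_eulerG.comp (Periodic.differentiable_qParam.differentiableOn) ?_
      intro z hz
      simpa using Periodic.norm_qParam_lt_one one_pos hz
    refine h1.congr fun z hz => ?_
    simp [etaFun, ofComplex_apply_of_im_pos hz]
  periodic := periodic_comp_ofComplex_of_vadd fun τ => by
    simp only [etaFun, coe_vadd]
    rw [add_comm]
    have := qParam_add_period 1 one_ne_zero (τ : ℂ)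
    simp only [ofReal_one] at this ⊢
    rw [this]
  bdd := isBoundedAtImInfty_of_hasSum_qExpansion one_pos hasSum_etaFun

lemma qExpansion_etaFun : qExpansion 1 etaFun = etaProdC := by
  rw [qExpansion_eq_of_hasSum one_pos (isHolPerBdd_etaFun.analyticAt one_pos) hasSum_etaFun]
  ext m
  simp

lemma discriminant_eq_qPow_mul : (fun τ : ℍ => ModularForm.discriminant τ)
    = qPow 1 1 * etaFun ^ 24 := by
  funext τ
  rw [ModularForm.discriminant_eq_q_prod]
  simp only [Pi.mul_apply, Pi.pow_apply, qPow_apply, pow_one, etaFun_eq]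
  congr 1
  have hm : Multipliable fun n : ℕ => (1 - ModularForm.eta_q n (τ : ℂ)) := by
    simp only [ModularForm.eta_q_eq_pow]
    apply ModularForm.multipliable_one_sub_pow
    have := Periodic.norm_qParam_lt_one one_pos τ.im_pos
    simpa [Periodic.qParam] using this
  exact hm.tprod_pow 24

lemma IsHolPerBdd.pow {h : ℝ} {f : ℍ → ℂ} (hf : IsHolPerBdd h f) (n : ℕ) :
    IsHolPerBdd h (f ^ n) := by
  induction n with
  | zero => rw [pow_zero]; exact IsHolPerBdd.const h 1
  | succ n ih => rw [pow_succ]; exact ih.mul hf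

lemma qExpansion_pow {h : ℝ} (hh : 0 < h) {f : ℍ → ℂ} (hf : IsHolPerBdd h f) (n : ℕ) :
    qExpansion h (f ^ n) = qExpansion h f ^ n := by
  induction n with
  | zero => simpa using qExpansion_one h
  | succ n ih =>
    rw [pow_succ, qExpansion_mul ((hf.pow n).analyticAt hh) (hf.analyticAt hh), ih, pow_succ]

/-- The `q`-expansion of `Δ` is the formal `q ∏ (1 - qⁿ)²⁴`. -/
theorem qExpansion_discriminant :
    qExpansion 1 (fun τ : ℍ => ModularForm.discriminant τ) = PowerSeries.X * etaProdC ^ 24 := by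
  rw [discriminant_eq_qPow_mul,
    qExpansion_mul ((IsHolPerBdd.qPow one_pos 1).analyticAt one_pos)
      ((isHolPerBdd_etaFun.pow 24).analyticAt one_pos),
    qExpansion_qPow one_pos, pow_one, qExpansion_pow one_pos isHolPerBdd_etaFun, qExpansion_etaFun]

/-- The `q`-expansion of `E₄` is the formal `1 + 240 ∑ σ₃(n) qⁿ`. -/
theorem qExpansion_E₄ :
    qExpansion 1 (E₄ : ℍ → ℂ) = ModularCurve.eisenstein4.map (Int.castRingHom ℂ) := by
  ext m
  rw [EisensteinSeries.E_qExpansion_coeff (by norm_num : 3 ≤ 4) (by decide) m,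
    PowerSeries.coeff_map, ModularCurve.eisenstein4, PowerSeries.coeff_mk]
  split_ifs with hm
  · simp
  · have hb : bernoulli 4 = -1 / 30 := by
      rw [bernoulli, bernoulli'_four]; norm_num
    rw [hb]
    simp only [ArithmeticFunction.sigma_apply, eq_intCast]
    push_cast
    ring

/-! ### The `j`-invariant -/

open Fermat.Agent.ProgramR.LevelOne

lemma isHolPerBdd_of_modularForm {F : Type*} [FunLike F ℍ ℂ] {k : ℤ} [ModularFormClass F 𝒮ℒ k]
    (f : F) : IsHolPerBdd 1 (f : ℍ → ℂ) where
  holo := ModularFormClass.holo f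
  periodic := by
    have := SlashInvariantFormClass.periodic_comp_ofComplex f
      one_mem_strictPeriods_SL
    simpa using this
  bdd := ModularFormClass.bdd_at_infty f

lemma jInv_vadd_one (τ : ℍ) : jInv ((1 : ℝ) +ᵥ τ) = jInv τ := by
  rw [← UpperHalfPlane.modular_T_smul, jInv_smul]

theorem isMeroAtInfty_jInv : IsMeroAtInfty 1 1 jInv where
  holo := mdifferentiable_jInv
  periodic := periodic_comp_ofComplex_of_vadd jInv_vadd_one
  bdd := by
    have h := tendsto_jInv_mul_q.isBigO_one ℝ
    refine Asymptotics.IsBigO.congr_left h fun z => ?_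
    simp only [Pi.mul_apply, qPow_apply, pow_one]
    ring

lemma discriminant_mul_jInv :
    (fun τ : ℍ => ModularForm.discriminant τ) * jInv = (E₄ : ℍ → ℂ) ^ 3 := by
  funext τ
  simp only [Pi.mul_apply, Pi.pow_apply, jInv_def]
  field_simp [ModularForm.discriminant_ne_zero τ]

/-- **The Laurent `q`-expansion of `jInv` is the prelude's formal `j(q)` (over `ℂ`).** -/
theorem laurentExp_jInv : laurentExp 1 jInv = ModularCurve.jqModC ℂ := by
  have hΔ : IsHolPerBdd 1 (fun τ : ℍ => ModularForm.discriminant τ) := by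
    have := isHolPerBdd_of_modularForm (CuspForm.discriminant : CuspForm 𝒮ℒ 12)
    exact this
  have hE : IsHolPerBdd 1 (E₄ : ℍ → ℂ) := isHolPerBdd_of_modularForm E₄
  have h1 : laurentExp 1 (fun τ : ℍ => ModularForm.discriminant τ) * laurentExp 1 jInv
      = laurentExp 1 ((E₄ : ℍ → ℂ) ^ 3) := by
    rw [← laurentExp_mul one_pos (IsMeroAtInfty.of_isHolPerBdd hΔ) isMeroAtInfty_jInv,
      discriminant_mul_jInv]
  rw [laurentExp_of_isHolPerBdd one_pos hΔ, laurentExp_of_isHolPerBdd one_pos (hE.pow 3),
    qExpansion_discriminant, qExpansion_pow one_pos hE, qExpansion_E₄] at h1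
  -- the formal identity
  have h2 : HahnSeries.ofPowerSeries ℤ ℂ (PowerSeries.X * etaProdC ^ 24) * ModularCurve.jqModC ℂ
      = HahnSeries.ofPowerSeries ℤ ℂ ((ModularCurve.eisenstein4.map (Int.castRingHom ℂ)) ^ 3) := by
    rw [ModularCurve.jqModC, ModularCurve.jNum, map_mul, map_mul, map_pow, map_pow, map_mul,
      map_pow, HahnSeries.ofPowerSeries_X]
    have hunit : etaProdC ^ 24 * ModularCurve.dedekindEtaUnitInv.map (Int.castRingHom ℂ) = 1 := by
      rw [etaProdC, ← map_pow, ← map_mul]
      have := ModularCurve.dedekindEtaUnit_mul_inv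
      rw [ModularCurve.dedekindEtaUnit] at this
      rw [this, map_one]
    have hunit' := congrArg (HahnSeries.ofPowerSeries ℤ ℂ) hunit
    rw [map_mul, map_pow, map_one] at hunit'
    have hs : (HahnSeries.single (1 : ℤ) (1 : ℂ)) * HahnSeries.single (-1 : ℤ) 1 = 1 := by
      rw [HahnSeries.single_mul_single]
      simp
    calc HahnSeries.single (1 : ℤ) (1 : ℂ) * HahnSeries.ofPowerSeries ℤ ℂ etaProdC ^ 24 *
          (HahnSeries.single (-1 : ℤ) 1 *
            (HahnSeries.ofPowerSeries ℤ ℂ (ModularCurve.eisenstein4.map (Int.castRingHom ℂ)) ^ 3 *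
              HahnSeries.ofPowerSeries ℤ ℂ
                (ModularCurve.dedekindEtaUnitInv.map (Int.castRingHom ℂ))))
        = (HahnSeries.single (1 : ℤ) (1 : ℂ) * HahnSeries.single (-1 : ℤ) 1) *
          (HahnSeries.ofPowerSeries ℤ ℂ etaProdC ^ 24 *
              HahnSeries.ofPowerSeries ℤ ℂ
                (ModularCurve.dedekindEtaUnitInv.map (Int.castRingHom ℂ))) *
            HahnSeries.ofPowerSeries ℤ ℂ (ModularCurve.eisenstein4.map (Int.castRingHom ℂ)) ^ 3 := by
          ring
      _ = HahnSeries.ofPowerSeries ℤ ℂ (ModularCurve.eisenstein4.map (Int.castRingHom ℂ)) ^ 3 := by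
          rw [hs, hunit', one_mul, one_mul]
  have hne : HahnSeries.ofPowerSeries ℤ ℂ (PowerSeries.X * etaProdC ^ 24) ≠ 0 := by
    intro h0
    rw [h0, zero_mul] at h2
    have h3 := HahnSeries.ofPowerSeries_injective (Γ := ℤ) (R := ℂ)
      (h2.symm.trans (map_zero _).symm)
    have h4 := congrArg (PowerSeries.constantCoeff (R := ℂ)) h3
    rw [map_pow, map_zero, ← PowerSeries.coeff_zero_eq_constantCoeff_apply, PowerSeries.coeff_map,
      PowerSeries.coeff_zero_eq_constantCoeff_apply, ModularCurve.constantCoeff_eisenstein4] at h4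
    simp at h4
  exact mul_left_cancel₀ hne (h1.trans h2.symm)

end Fermat.Agent.ProgramR.QExp
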