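/-
Program R, package [QEXP], part 3: behaviour of Laurent `q`-expansions under
`τ ↦ d τ` (scaling) and under change of the period `h ↦ n h`.
Both are the substitution `X ↦ X^d` on Laurent series, i.e. the prelude's `ModularCurve.qExpand`.

Main results (namespace `Fermat.Agent.ProgramR.QExp`):
* `laurentExp_comp_of_qParam_pow` (common core)
* `laurentExp_scale`  : `laurentExp 1 (f ∘ φ) = qExpand ℂ d (laurentExp 1 f)` if `φ τ = d τ`
* `laurentExp_period_mul` : `laurentExp (n * h) f = qExpand ℂ n (laurentExp h f)`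
-/
import Mathlib
import Fermat.Prelude.Def_ModularCurve_X0
import Fermat.Agent.ProgramR.QExp.Laurent

set_option autoImplicit false

noncomputable section

open Complex Filter Function Topology
open UpperHalfPlane hiding I
open scoped Real Manifold

namespace Fermat.Agent.ProgramR.QExp

local notation "𝕢" => Periodic.qParam

/-- The substitution `X ↦ X^d` on power series, by coefficients. -/
def expandPS (d : ℕ) (P : PowerSeries ℂ) : PowerSeries ℂ :=
  PowerSeries.mk fun k => if d ∣ k then PowerSeries.coeff (k / d) P else 0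

lemma coeff_expandPS (d : ℕ) (P : PowerSeries ℂ) (k : ℕ) :
    PowerSeries.coeff k (expandPS d P) = if d ∣ k then PowerSeries.coeff (k / d) P else 0 := by
  simp [expandPS]

/-- `qExpand d` of a power series is the expanded power series. -/
lemma qExpand_ofPowerSeries (d : ℕ) [NeZero d] (P : PowerSeries ℂ) :
    ModularCurve.qExpand ℂ d (HahnSeries.ofPowerSeries ℤ ℂ P) =
      HahnSeries.ofPowerSeries ℤ ℂ (expandPS d P) := by
  have hd : d ≠ 0 := NeZero.ne d
  ext k
  by_cases hk : ((d : ℤ)) ∣ k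
  · obtain ⟨m, rfl⟩ := hk
    rw [ModularCurve.qExpand_coeff_mul]
    rcases le_or_gt 0 m with hm | hm
    · obtain ⟨n, rfl⟩ := Int.eq_ofNat_of_zero_le hm
      have : (d : ℤ) * (n : ℤ) = ((d * n : ℕ) : ℤ) := by push_cast; ring
      rw [this, HahnSeries.ofPowerSeries_apply_coeff, HahnSeries.ofPowerSeries_apply_coeff,
        coeff_expandPS, if_pos (Dvd.intro _ rfl), Nat.mul_div_cancel_left _ (Nat.pos_of_ne_zero hd)]
    · have hneg : (d : ℤ) * m < 0 :=
        mul_neg_of_pos_of_neg (by exact_mod_cast Nat.pos_of_ne_zero hd) hm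
      rw [ModularCurve.ofPowerSeries_coeff_of_neg _ hm,
        ModularCurve.ofPowerSeries_coeff_of_neg _ hneg]
  · rw [ModularCurve.qExpand_coeff_of_not_dvd d _ hk]
    rcases le_or_gt 0 k with hk0 | hk0
    · obtain ⟨n, rfl⟩ := Int.eq_ofNat_of_zero_le hk0
      rw [HahnSeries.ofPowerSeries_apply_coeff, coeff_expandPS, if_neg]
      intro hdn
      exact hk (by exact_mod_cast hdn)
    · rw [ModularCurve.ofPowerSeries_coeff_of_neg _ hk0]

/-- Common core: if `g' = g ∘ ψ` and `q_h (ψ τ) = (q_{h'} τ)^d`, then the `q_{h'}`-expansion of `g'`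
is the `q_h`-expansion of `g` with `X ↦ X^d`. -/
lemma qExpansion_comp_of_qParam_pow {h h' : ℝ} (hh : 0 < h) (hh' : 0 < h') {d : ℕ}
    {g g' : ℍ → ℂ} (hg : IsHolPerBdd h g) (hg' : IsHolPerBdd h' g') (ψ : ℍ → ℍ)
    (hgg : ∀ τ, g' τ = g (ψ τ)) (hψ : ∀ τ : ℍ, 𝕢 h (ψ τ : ℂ) = 𝕢 h' (τ : ℂ) ^ d) (hd : 0 < d) :
    qExpansion h' g' = expandPS d (qExpansion h g) := by
  have hsum : ∀ τ : ℍ, HasSum (fun k : ℕ => PowerSeries.coeff k (expandPS d (qExpansion h g)) •
      𝕢 h' (τ : ℂ) ^ k) (g' τ) := by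
    intro τ
    have h1 := hasSum_qExpansion hh hg.periodic hg.holo hg.bdd (ψ τ)
    rw [hψ τ, ← hgg τ] at h1
    have hinj : Function.Injective (fun n : ℕ => d * n) :=
      fun a b hab => Nat.eq_of_mul_eq_mul_left hd hab
    rw [← hinj.hasSum_iff]
    · convert h1 using 2 with n
      simp only [Function.comp_apply, coeff_expandPS, if_pos (Dvd.intro n rfl),
        Nat.mul_div_cancel_left _ hd, pow_mul]
    · intro k hk
      have : ¬ d ∣ k := by
        rintro ⟨n, rfl⟩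
        exact hk ⟨n, rfl⟩
      simp [coeff_expandPS, this]
  rw [qExpansion_eq_of_hasSum hh' (hg'.analyticAt hh') hsum]
  ext k
  simp

/-- Laurent version of the common core. -/
lemma laurentExp_comp_of_qParam_pow {h h' : ℝ} (hh : 0 < h) (hh' : 0 < h') {d : ℕ} [NeZero d]
    {m : ℕ} {f f' : ℍ → ℂ} (hf : IsMeroAtInfty h m f) (hf' : IsMeroAtInfty h' (d * m) f')
    (ψ : ℍ → ℍ) (hff : ∀ τ, f' τ = f (ψ τ))
    (hψ : ∀ τ : ℍ, 𝕢 h (ψ τ : ℂ) = 𝕢 h' (τ : ℂ) ^ d) :
    laurentExp h' f' = ModularCurve.qExpand ℂ d (laurentExp h f) := by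
  have hd : 0 < d := Nat.pos_of_ne_zero (NeZero.ne d)
  rw [laurentExp_eq hh' hf', laurentExp_eq hh hf, laurentAux, laurentAux, map_mul,
    ModularCurve.qExpand_single, qExpand_ofPowerSeries]
  have hcore : qExpansion h' (qPow h' (d * m) * f') = expandPS d (qExpansion h (qPow h m * f)) := by
    refine qExpansion_comp_of_qParam_pow hh hh' (hf.isHolPerBdd hh) (hf'.isHolPerBdd hh') ψ ?_ hψ hd
    intro τ
    simp only [Pi.mul_apply, qPow_apply, hff τ, hψ τ]
    rw [← pow_mul]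
  rw [hcore]
  congr 2
  push_cast
  ring_nf

/-- `q_h(τ) = q_{n h}(τ)^n`. -/
lemma qParam_eq_pow_qParam_mul (h : ℝ) (hh : h ≠ 0) (n : ℕ) (hn : n ≠ 0) (z : ℂ) :
    𝕢 h z = 𝕢 ((n : ℝ) * h) z ^ n := by
  simp only [Periodic.qParam]
  rw [← Complex.exp_nat_mul]
  congr 1
  have h1 : (h : ℂ) ≠ 0 := by exact_mod_cast hh
  have h2 : (n : ℂ) ≠ 0 := by exact_mod_cast hn
  push_cast
  field_simp

/-- `q_1(d τ) = q_1(τ)^d`. -/
lemma qParam_nat_mul (h : ℝ) (d : ℕ) (z : ℂ) : 𝕢 h ((d : ℂ) * z) = 𝕢 h z ^ d := by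
  simp only [Periodic.qParam]
  rw [← Complex.exp_nat_mul]
  congr 1
  ring

/-- An `h`-periodic function is `n h`-periodic. -/
lemma periodic_nat_mul {f : ℍ → ℂ} {h : ℝ} (hf : Periodic (f ∘ ofComplex) h) (n : ℕ) :
    Periodic (f ∘ ofComplex) ((n : ℝ) * h : ℝ) := by
  have := hf.nat_mul n
  simpa using this

/-- Change of period: the `q_{n h}`-expansion is the `q_h`-expansion with `X ↦ X^n`. -/
theorem isMeroAtInfty_period_mul {h : ℝ} (hh : 0 < h) {n : ℕ} (hn : 0 < n) {m : ℕ} {f : ℍ → ℂ}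
    (hf : IsMeroAtInfty h m f) : IsMeroAtInfty ((n : ℝ) * h) (n * m) f where
  holo := hf.holo
  periodic := periodic_nat_mul hf.periodic n
  bdd := by
    have : qPow ((n : ℝ) * h) (n * m) * f = qPow h m * f := by
      funext τ
      simp only [Pi.mul_apply, qPow_apply]
      rw [qParam_eq_pow_qParam_mul h hh.ne' n hn.ne', pow_mul]
    rw [this]
    exact hf.bdd

theorem laurentExp_period_mul {h : ℝ} (hh : 0 < h) {n : ℕ} [NeZero n] {m : ℕ} {f : ℍ → ℂ}
    (hf : IsMeroAtInfty h m f) :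
    laurentExp ((n : ℝ) * h) f = ModularCurve.qExpand ℂ n (laurentExp h f) := by
  have hn : 0 < n := Nat.pos_of_ne_zero (NeZero.ne n)
  have hh' : 0 < (n : ℝ) * h := mul_pos (by exact_mod_cast hn) hh
  exact laurentExp_comp_of_qParam_pow hh hh' hf (isMeroAtInfty_period_mul hh hn hf) id
    (fun _ => rfl) (fun τ => qParam_eq_pow_qParam_mul h hh.ne' n hn.ne' τ)

/-- Scaling `τ ↦ d τ` preserves meromorphy at `i∞` (period `1`). -/
theorem isMeroAtInfty_scale {d : ℕ} (hd : 0 < d) {m : ℕ} {f : ℍ → ℂ}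
    (hf : IsMeroAtInfty 1 m f) (φ : ℍ → ℍ) (hφ : ∀ τ : ℍ, (φ τ : ℂ) = (d : ℂ) * τ) :
    IsMeroAtInfty 1 (d * m) (f ∘ φ) where
  holo := by
    rw [UpperHalfPlane.mdifferentiable_iff]
    have h1 := UpperHalfPlane.mdifferentiable_iff.mp hf.holo
    have h2 : DifferentiableOn ℂ ((f ∘ ofComplex) ∘ fun z : ℂ => (d : ℂ) * z) {z | 0 < z.im} := by
      refine h1.comp (by fun_prop) ?_
      intro z hz
      simp only [Set.mem_ofPred_eq, mul_im, natCast_re, natCast_im, zero_mul, add_zero]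
      exact mul_pos (by exact_mod_cast hd) hz
    refine h2.congr fun z hz => ?_
    have hz' : 0 < ((d : ℂ) * z).im := by
      simp only [mul_im, natCast_re, natCast_im, zero_mul, add_zero]
      exact mul_pos (by exact_mod_cast hd) hz
    simp only [comp_apply, ofComplex_apply_of_im_pos hz, ofComplex_apply_of_im_pos hz']
    congr 1
    ext
    rw [hφ]
  periodic := periodic_comp_ofComplex_of_vadd fun τ => by
    have h1 : φ ((1 : ℝ) +ᵥ τ) = ((d : ℝ)) +ᵥ φ τ := by
      ext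
      simp only [coe_vadd, hφ]
      push_cast
      ring
    simp only [comp_apply, h1]
    have h2 := periodic_nat_mul hf.periodic d
    have h3 := vadd_of_periodic_comp_ofComplex h2 (φ τ)
    simpa using h3
  bdd := by
    have h1 : qPow 1 (d * m) * (f ∘ φ) = (qPow 1 m * f) ∘ φ := by
      funext τ
      simp only [Pi.mul_apply, qPow_apply, comp_apply, hφ]
      rw [qParam_nat_mul, pow_mul]
    rw [h1]
    have h2 := hf.bdd
    rw [isBoundedAtImInfty_iff] at h2 ⊢
    obtain ⟨M, A, hMA⟩ := h2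
    refine ⟨M, max A 0, fun τ hτ => ?_⟩
    apply hMA
    have him : (φ τ).im = (d : ℝ) * τ.im := by
      have := congrArg Complex.im (hφ τ)
      simpa using this
    rw [him]
    have h1d : (1 : ℝ) ≤ d := by exact_mod_cast hd
    have hτ0 : 0 ≤ τ.im := τ.im_pos.le
    calc A ≤ τ.im := (le_max_left A 0).trans hτ
      _ = 1 * τ.im := (one_mul _).symm
      _ ≤ (d : ℝ) * τ.im := by gcongr

theorem laurentExp_scale {d : ℕ} [NeZero d] {m : ℕ} {f : ℍ → ℂ}
    (hf : IsMeroAtInfty 1 m f) (φ : ℍ → ℍ) (hφ : ∀ τ : ℍ, (φ τ : ℂ) = (d : ℂ) * τ) :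
    laurentExp 1 (f ∘ φ) = ModularCurve.qExpand ℂ d (laurentExp 1 f) := by
  have hd : 0 < d := Nat.pos_of_ne_zero (NeZero.ne d)
  exact laurentExp_comp_of_qParam_pow one_pos one_pos hf (isMeroAtInfty_scale hd hf φ hφ) φ
    (fun _ => rfl) (fun τ => by rw [hφ, qParam_nat_mul])

end Fermat.Agent.ProgramR.QExp
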